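import Mathlib

set_option autoImplicit false

/-!
# Orthonormal bases of finite-dimensional spaces of Laurent series over a valued field

`L` is a field with a valuation subring `A`.  A Laurent series over `L` is *integral* if all its
coefficients lie in `A`, and *primitive* if moreover some coefficient is a unit of `A`
(Gauss norm exactly one).  If every nonzero element of a finite-dimensional subspace `V` of
`L⸨X⸩` can be scaled to a primitive series (the Gauss norm is attained on `V`), then `V` has a basis
of integral series whose reductions modulo the maximal ideal are linearly independent, and the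
integral elements of `V` are exactly the `A`-linear combinations of this basis.
-/

namespace Fermat.Agent.Lib.ValLattice

open HahnSeries LaurentSeries

variable {L : Type*} [Field L] (A : ValuationSubring L)

/-- All coefficients lie in `A`. -/
def IsIntLS (f : L⸨X⸩) : Prop := ∀ n, f.coeff n ∈ A

/-- Integral, and some coefficient is a unit of `A`. -/
def IsPrimLS (f : L⸨X⸩) : Prop := IsIntLS A f ∧ ∃ n, A.valuation (f.coeff n) = 1

/-- All coefficients lie in the maximal ideal of `A`. -/
def IsSmallLS (f : L⸨X⸩) : Prop := ∀ n, A.valuation (f.coeff n) < 1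

/-- The reductions of the `w i` modulo the maximal ideal are linearly independent over the residue
field, phrased without the residue field: an `A`-linear combination of the `w i` all of whose
coefficients are in the maximal ideal has all its scalars in the maximal ideal. -/
def RedIndep {ι : Type*} [Fintype ι] (w : ι → L⸨X⸩) : Prop :=
  ∀ c : ι → L, (∀ i, c i ∈ A) → IsSmallLS A (∑ i, c i • w i) → ∀ i, A.valuation (c i) < 1

variable {A}

theorem IsIntLS.smul {f : L⸨X⸩} (hf : IsIntLS A f) {a : L} (ha : a ∈ A) : IsIntLS A (a • f) := by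
  intro n
  rw [HahnSeries.coeff_smul, smul_eq_mul]
  exact A.mul_mem _ _ ha (hf n)

theorem IsIntLS.add {f g : L⸨X⸩} (hf : IsIntLS A f) (hg : IsIntLS A g) : IsIntLS A (f + g) := by
  intro n
  rw [HahnSeries.coeff_add]
  exact A.add_mem _ _ (hf n) (hg n)

theorem IsIntLS.sub {f g : L⸨X⸩} (hf : IsIntLS A f) (hg : IsIntLS A g) : IsIntLS A (f - g) := by
  intro n
  rw [HahnSeries.coeff_sub]
  exact sub_mem (hf n) (hg n)

theorem IsIntLS.zero : IsIntLS A (0 : L⸨X⸩) := fun n => by
  rw [HahnSeries.coeff_zero]; exact A.zero_mem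

theorem IsIntLS.sum {ι : Type*} (s : Finset ι) (f : ι → L⸨X⸩) (h : ∀ i ∈ s, IsIntLS A (f i)) :
    IsIntLS A (∑ i ∈ s, f i) := by
  classical
  induction s using Finset.induction_on with
  | empty => simpa using IsIntLS.zero
  | insert a s ha ih =>
    rw [Finset.sum_insert ha]
    exact (h a (Finset.mem_insert_self a s)).add
      (ih fun i hi => h i (Finset.mem_insert_of_mem hi))

/-- Scaling an integral series by an element of the maximal ideal gives a small series. -/
theorem IsIntLS.isSmallLS_smul {f : L⸨X⸩} (hf : IsIntLS A f) {a : L} (ha : A.valuation a < 1) :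
    IsSmallLS A (a • f) := by
  intro n
  rw [HahnSeries.coeff_smul, smul_eq_mul, map_mul]
  calc A.valuation a * A.valuation (f.coeff n) ≤ A.valuation a * 1 :=
        mul_le_mul' le_rfl ((A.valuation_le_one_iff _).mpr (hf n))
    _ = A.valuation a := mul_one _
    _ < 1 := ha

/-- **The integral elements are the integral combinations.**  If the `w i` are integral with
independent reductions, then a combination `∑ c i • w i` with coefficients in `L` is integral only
if all `c i` are in `A`. -/
theorem coeff_mem_of_redIndep {ι : Type*} [Fintype ι] {w : ι → L⸨X⸩}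
    (hw : RedIndep A w) (c : ι → L) (hc : IsIntLS A (∑ i, c i • w i)) :
    ∀ i, c i ∈ A := by
  classical
  by_contra hcon
  push Not at hcon
  obtain ⟨i₁, hi₁⟩ := hcon
  -- an index of maximal valuation
  obtain ⟨i₀, -, hmax⟩ := Finset.exists_max_image Finset.univ (fun i => A.valuation (c i))
    ⟨i₁, Finset.mem_univ _⟩
  have hbig : 1 < A.valuation (c i₀) := by
    have h1 : 1 < A.valuation (c i₁) := by
      rw [← not_le, A.valuation_le_one_iff]
      exact hi₁
    exact lt_of_lt_of_le h1 (hmax i₁ (Finset.mem_univ _))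
  have hc0 : c i₀ ≠ 0 := by
    intro h
    rw [h, map_zero] at hbig
    exact not_lt_of_ge zero_le hbig
  set c' : ι → L := fun i => (c i₀)⁻¹ * c i with hc'
  have hc'A : ∀ i, c' i ∈ A := by
    intro i
    rw [← A.valuation_le_one_iff, hc', map_mul, map_inv₀]
    calc (A.valuation (c i₀))⁻¹ * A.valuation (c i)
        ≤ (A.valuation (c i₀))⁻¹ * A.valuation (c i₀) :=
          mul_le_mul' le_rfl (hmax i (Finset.mem_univ _))
      _ = 1 := inv_mul_cancel₀ (by
          intro h
          rw [h] at hbig
          exact not_lt_of_ge zero_le hbig)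
  have hsum : ∑ i, c' i • w i = (c i₀)⁻¹ • ∑ i, c i • w i := by
    rw [Finset.smul_sum]
    refine Finset.sum_congr rfl fun i _ => ?_
    rw [hc', smul_smul]
  have hsmall : IsSmallLS A (∑ i, c' i • w i) := by
    rw [hsum]
    apply hc.isSmallLS_smul
    rw [map_inv₀]
    exact inv_lt_one_of_one_lt₀ hbig
  have := hw c' hc'A hsmall i₀
  simp only [hc'] at this
  rw [inv_mul_cancel₀ hc0, map_one] at this
  exact lt_irrefl _ this

theorem IsSmallLS.sub {f g : L⸨X⸩} (hf : IsSmallLS A f) (hg : IsSmallLS A g) :
    IsSmallLS A (f - g) := by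
  intro n
  rw [HahnSeries.coeff_sub]
  exact Valuation.map_sub_lt _ (hf n) (hg n)

/-- Independent reductions imply linear independence. -/
theorem RedIndep.linearIndependent {d : ℕ} {w : Fin d → L⸨X⸩} (hw : RedIndep A w) :
    LinearIndependent L w := by
  classical
  rw [Fintype.linearIndependent_iff]
  intro c hc
  by_contra hcon
  push Not at hcon
  obtain ⟨i₁, hi₁⟩ := hcon
  obtain ⟨i₀, -, hmax⟩ := Finset.exists_max_image Finset.univ (fun i => A.valuation (c i))
    ⟨i₁, Finset.mem_univ _⟩
  have hc0 : c i₀ ≠ 0 := by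
    intro h
    have h1 := hmax i₁ (Finset.mem_univ _)
    rw [h, map_zero] at h1
    exact hi₁ ((Valuation.zero_iff _).mp (le_antisymm h1 zero_le))
  have hpos : A.valuation (c i₀) ≠ 0 := (Valuation.ne_zero_iff _).mpr hc0
  set c' : Fin d → L := fun i => (c i₀)⁻¹ * c i with hc'
  have hc'A : ∀ i, c' i ∈ A := by
    intro i
    rw [← A.valuation_le_one_iff, hc', map_mul, map_inv₀]
    calc (A.valuation (c i₀))⁻¹ * A.valuation (c i)
        ≤ (A.valuation (c i₀))⁻¹ * A.valuation (c i₀) :=
          mul_le_mul' le_rfl (hmax i (Finset.mem_univ _))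
      _ = 1 := inv_mul_cancel₀ hpos
  have hsum : ∑ i, c' i • w i = 0 := by
    have : ∑ i, c' i • w i = (c i₀)⁻¹ • ∑ i, c i • w i := by
      rw [Finset.smul_sum]
      refine Finset.sum_congr rfl fun i _ => ?_
      rw [hc', smul_smul]
    rw [this, hc, smul_zero]
  have hsmall : IsSmallLS A (∑ i, c' i • w i) := by
    rw [hsum]
    intro n
    rw [HahnSeries.coeff_zero, map_zero]
    exact zero_lt_one
  have := hw c' hc'A hsmall i₀
  simp only [hc'] at this
  rw [inv_mul_cancel₀ hc0, map_one] at this
  exact lt_irrefl _ this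

/-- The family `w` is in echelon form at the positions `p`: integral, with a unit coefficient at
its own position and zero coefficients at the earlier positions. -/
structure IsEchelon (A : ValuationSubring L) {d : ℕ} (w : Fin d → L⸨X⸩) (p : Fin d → ℤ) :
    Prop where
  int : ∀ i, IsIntLS A (w i)
  unit : ∀ i, A.valuation ((w i).coeff (p i)) = 1
  zero : ∀ i j, j < i → (w i).coeff (p j) = 0

/-- A family in echelon form has independent reductions. -/
theorem IsEchelon.redIndep {d : ℕ} {w : Fin d → L⸨X⸩} {p : Fin d → ℤ} (h : IsEchelon A w p) :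
    RedIndep A w := by
  classical
  intro c hcA hsmall
  have key : ∀ k : ℕ, ∀ i : Fin d, (i : ℕ) = k → A.valuation (c i) < 1 := by
    intro k
    induction k using Nat.strong_induction_on with
    | _ k ih =>
    intro i hik
    -- the coefficient at position `p i`
    have h1 := hsmall (p i)
    rw [HahnSeries.coeff_sum] at h1
    have hsplit : ∑ j, (c j • w j).coeff (p i) =
        c i * (w i).coeff (p i) + ∑ j ∈ Finset.univ.erase i, c j * (w j).coeff (p i) := by
      rw [← Finset.add_sum_erase Finset.univ _ (Finset.mem_univ i)]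
      simp [HahnSeries.coeff_smul]
    have hrest : A.valuation (∑ j ∈ Finset.univ.erase i, c j * (w j).coeff (p i)) < 1 := by
      apply Valuation.map_sum_lt _ one_ne_zero
      intro j hj
      have hji : j ≠ i := Finset.ne_of_mem_erase hj
      rcases lt_or_gt_of_ne hji with hlt | hgt
      · rw [map_mul]
        calc A.valuation (c j) * A.valuation ((w j).coeff (p i))
            ≤ A.valuation (c j) * 1 :=
              mul_le_mul' le_rfl ((A.valuation_le_one_iff _).mpr (h.int j (p i)))
          _ = A.valuation (c j) := mul_one _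
          _ < 1 := ih j.val (by rw [← hik]; exact hlt) j rfl
      · rw [h.zero j i hgt, mul_zero, map_zero]
        exact zero_lt_one
    rw [hsplit] at h1
    have h2 : A.valuation (c i * (w i).coeff (p i)) < 1 := by
      have : c i * (w i).coeff (p i) =
          (c i * (w i).coeff (p i) + ∑ j ∈ Finset.univ.erase i, c j * (w j).coeff (p i)) -
            ∑ j ∈ Finset.univ.erase i, c j * (w j).coeff (p i) := by ring
      rw [this]
      exact Valuation.map_sub_lt _ h1 hrest
    rwa [map_mul, h.unit i, mul_one] at h2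
  exact fun i => key i.val i rfl

/-- **Existence of an orthonormal basis.**  If the Gauss norm is attained on the
finite-dimensional subspace `V` of `L⸨X⸩`, then `V` is spanned by a family in echelon form. -/
theorem exists_echelon_basis (V : Submodule L L⸨X⸩) [FiniteDimensional L V]
    (hV : ∀ v ∈ V, v ≠ 0 → ∃ a : L, a ≠ 0 ∧ IsPrimLS A (a • v)) :
    ∃ (d : ℕ) (w : Fin d → L⸨X⸩) (p : Fin d → ℤ), (∀ i, w i ∈ V) ∧ IsEchelon A w p ∧
      Submodule.span L (Set.range w) = V := by
  classical
  induction hn : Module.finrank L V generalizing V with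
  | zero =>
    have hbot : V = ⊥ := Submodule.finrank_eq_zero.mp hn
    refine ⟨0, fun i => i.elim0, fun i => i.elim0, fun i => i.elim0,
      ⟨fun i => i.elim0, fun i => i.elim0, fun i => i.elim0⟩, ?_⟩
    rw [hbot]
    simp
  | succ n ih =>
    -- a primitive element `u` of `V`
    have hne : V ≠ ⊥ := by
      intro h
      rw [h, finrank_bot] at hn
      exact Nat.succ_ne_zero n hn.symm
    obtain ⟨v, hvV, hv0⟩ := Submodule.exists_mem_ne_zero_of_ne_bot hne
    obtain ⟨a, ha0, hint, n₀, hn₀⟩ := hV v hvV hv0
    set u : L⸨X⸩ := a • v with hu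
    have huV : u ∈ V := V.smul_mem a hvV
    have hun₀ : u.coeff n₀ ≠ 0 := by
      intro h
      rw [h, map_zero] at hn₀
      exact zero_ne_one hn₀
    -- the coefficient functional
    let φ : L⸨X⸩ →ₗ[L] L :=
      { toFun := fun f => f.coeff n₀
        map_add' := fun f g => by simp
        map_smul' := fun c f => by simp }
    set V' : Submodule L L⸨X⸩ := V ⊓ LinearMap.ker φ with hV'
    have hV'le : V' ≤ V := inf_le_left
    have : FiniteDimensional L V' := Submodule.finiteDimensional_of_le hV'le
    -- every element of `V` is a multiple of `u` plus an element of `V'`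
    have hdecomp : ∀ f ∈ V, f - (f.coeff n₀ / u.coeff n₀) • u ∈ V' := by
      intro f hf
      refine ⟨V.sub_mem hf (V.smul_mem _ huV), ?_⟩
      show f - (f.coeff n₀ / u.coeff n₀) • u ∈ LinearMap.ker φ
      rw [LinearMap.mem_ker]
      show (f - (f.coeff n₀ / u.coeff n₀) • u).coeff n₀ = 0
      rw [HahnSeries.coeff_sub, HahnSeries.coeff_smul, smul_eq_mul, div_mul_cancel₀ _ hun₀,
        sub_self]
    -- the dimension of `V'`
    have hsup : V' ⊔ Submodule.span L {u} = V := by
      apply le_antisymm
      · exact sup_le hV'le ((Submodule.span_singleton_le_iff_mem u V).mpr huV)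
      · intro f hf
        have h1 := hdecomp f hf
        have h2 : f = (f - (f.coeff n₀ / u.coeff n₀) • u) + (f.coeff n₀ / u.coeff n₀) • u := by
          abel
        rw [h2]
        exact Submodule.add_mem_sup h1
          (Submodule.smul_mem _ _ (Submodule.mem_span_singleton_self u))
    have hinf : V' ⊓ Submodule.span L {u} = ⊥ := by
      rw [eq_bot_iff]
      rintro f ⟨hf1, hf2⟩
      obtain ⟨c, rfl⟩ := Submodule.mem_span_singleton.mp hf2
      have h0 : (c • u).coeff n₀ = 0 := LinearMap.mem_ker.mp hf1.2
      rw [HahnSeries.coeff_smul, smul_eq_mul] at h0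
      rcases mul_eq_zero.mp h0 with h | h
      · rw [h, zero_smul]; exact Submodule.zero_mem _
      · exact absurd h hun₀
    have hu0 : u ≠ 0 := fun h => hun₀ (by rw [h, HahnSeries.coeff_zero])
    have hdim : Module.finrank L V' = n := by
      have h1 := Submodule.finrank_sup_add_finrank_inf_eq V' (Submodule.span L {u})
      rw [hsup, hinf, finrank_bot, add_zero, finrank_span_singleton hu0, hn] at h1
      omega
    obtain ⟨d, w, p, hwV, hech, hwspan⟩ :=
      ih V' (fun f hf hf0 => hV f (hV'le hf) hf0) hdim
    have hwn₀ : ∀ i, (w i).coeff n₀ = 0 := fun i => LinearMap.mem_ker.mp (hwV i).2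
    refine ⟨d + 1, Fin.cons u w, Fin.cons n₀ p, ?_, ⟨?_, ?_, ?_⟩, ?_⟩
    · intro i
      refine Fin.cases ?_ (fun j => ?_) i
      · simpa using huV
      · simpa using hV'le (hwV j)
    · intro i
      refine Fin.cases ?_ (fun j => ?_) i
      · simpa using hint
      · simpa using hech.int j
    · intro i
      refine Fin.cases ?_ (fun j => ?_) i
      · simpa using hn₀
      · simpa using hech.unit j
    · intro i j hji
      revert hji
      refine Fin.cases ?_ (fun i' => ?_) i
      · intro hji
        exact absurd hji (Fin.not_lt_zero j)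
      · refine Fin.cases ?_ (fun j' => ?_) j
        · intro _
          simpa using hwn₀ i'
        · intro hji
          have : j' < i' := Fin.succ_lt_succ_iff.mp hji
          simpa using hech.zero i' j' this
    · rw [← hsup, ← hwspan, Fin.range_cons, Submodule.span_insert, sup_comm]

/-- The integral elements of `V` are the `A`-combinations of an echelon basis. -/
theorem IsEchelon.coeff_mem {d : ℕ} {w : Fin d → L⸨X⸩} {p : Fin d → ℤ} (h : IsEchelon A w p)
    (c : Fin d → L) (hc : IsIntLS A (∑ i, c i • w i)) : ∀ i, c i ∈ A :=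
  coeff_mem_of_redIndep h.redIndep c hc

/-! ### Scaling to a primitive series over a discretely valued field -/

/-- Over a discretely valued field, a nonzero Laurent series with bounded denominators can be
scaled to a primitive one: the Gauss norm is attained. -/
theorem exists_isPrimLS_smul_of_discrete {π : L} (hπ0 : π ≠ 0) (hπ : A.valuation π < 1)
    (hdisc : ∀ x : L, x ≠ 0 → ∃ m : ℤ, A.valuation x = A.valuation π ^ m)
    {f : L⸨X⸩} (hf : f ≠ 0) (hbdd : ∃ b : L, b ≠ 0 ∧ IsIntLS A (b • f)) :
    ∃ a : L, a ≠ 0 ∧ IsPrimLS A (a • f) := by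
  classical
  obtain ⟨b, hb0, hb⟩ := hbdd
  have hvπ0 : A.valuation π ≠ 0 := (Valuation.ne_zero_iff _).mpr hπ0
  have hvπpos : 0 < A.valuation π := lt_of_le_of_ne zero_le hvπ0.symm
  -- exponents of the nonzero coefficients
  obtain ⟨mb, hmb⟩ := hdisc b hb0
  have hcoef : ∃ n, f.coeff n ≠ 0 := by
    by_contra hcon
    push Not at hcon
    exact hf (HahnSeries.ext (funext fun n => by rw [hcon n, HahnSeries.coeff_zero]))
  let P : ℤ → Prop := fun m => ∃ n, f.coeff n ≠ 0 ∧ A.valuation (f.coeff n) = A.valuation π ^ m
  have hPne : ∃ m, P m := by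
    obtain ⟨n, hn⟩ := hcoef
    obtain ⟨m, hm⟩ := hdisc _ hn
    exact ⟨m, n, hn, hm⟩
  have hPbdd : ∀ m, P m → -mb ≤ m := by
    rintro m ⟨n, hn0, hn⟩
    have h1 := hb n
    rw [HahnSeries.coeff_smul, smul_eq_mul, ← A.valuation_le_one_iff, map_mul, hmb, hn,
      ← zpow_add₀ hvπ0] at h1
    by_contra hlt
    rw [not_le] at hlt
    have h2 : mb + m < 0 := by omega
    have h3 : 1 < A.valuation π ^ (mb + m) :=
      one_lt_zpow_of_neg₀ hvπpos hπ h2
    exact not_lt_of_ge h1 h3
  obtain ⟨m₁, hm₁P, hm₁min⟩ := Int.exists_least_of_bdd ⟨-mb, hPbdd⟩ hPne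
  refine ⟨π ^ (-m₁), zpow_ne_zero _ hπ0, ?_, ?_⟩
  · intro n
    rw [HahnSeries.coeff_smul, smul_eq_mul, ← A.valuation_le_one_iff, map_mul, map_zpow₀]
    by_cases hn0 : f.coeff n = 0
    · rw [hn0, map_zero, mul_zero]
      exact zero_le_one
    · obtain ⟨m, hm⟩ := hdisc _ hn0
      have hle : m₁ ≤ m := hm₁min m ⟨n, hn0, hm⟩
      rw [hm, ← zpow_add₀ hvπ0]
      exact zpow_le_one₀ hvπpos hπ.le (by omega)
  · obtain ⟨n, hn0, hn⟩ := hm₁P
    refine ⟨n, ?_⟩
    rw [HahnSeries.coeff_smul, smul_eq_mul, map_mul, map_zpow₀, hn, ← zpow_add₀ hvπ0,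
      neg_add_cancel, zpow_zero]

/-! ### Base change of an echelon family -/

section BaseChange

variable {K : Type*} [Field K] {A₀ : ValuationSubring K} (σ : K →+* L)

theorem valuation_eq_one_iff_mem_and_inv_mem (B : ValuationSubring L) {x : L} (hx : x ≠ 0) :
    B.valuation x = 1 ↔ x ∈ B ∧ x⁻¹ ∈ B := by
  have h0 : B.valuation x ≠ 0 := (Valuation.ne_zero_iff _).mpr hx
  rw [← B.valuation_le_one_iff, ← B.valuation_le_one_iff, map_inv₀]
  constructor
  · intro h
    rw [h, inv_one]
    exact ⟨le_rfl, le_rfl⟩
  · rintro ⟨h1, h2⟩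
    have h3 : 1 ≤ B.valuation x := by
      have := mul_le_mul' h2 (le_refl (B.valuation x))
      rwa [inv_mul_cancel₀ h0, one_mul] at this
    exact le_antisymm h1 h3

/-- An echelon family stays echelon after an extension of valued fields. -/
theorem IsEchelon.map {d : ℕ} {w : Fin d → K⸨X⸩} {p : Fin d → ℤ} (h : IsEchelon A₀ w p)
    (hcompat : ∀ x : K, x ∈ A₀ ↔ σ x ∈ A) :
    IsEchelon A (fun i => (w i).map σ) p := by
  refine ⟨fun i n => ?_, fun i => ?_, fun i j hji => ?_⟩
  · rw [HahnSeries.map_coeff]
    exact (hcompat _).mp (h.int i n)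
  · have hne : (w i).coeff (p i) ≠ 0 := by
      intro h0
      have := h.unit i
      rw [h0, map_zero] at this
      exact zero_ne_one this
    have hne' : σ ((w i).coeff (p i)) ≠ 0 := (map_ne_zero σ).mpr hne
    rw [HahnSeries.map_coeff, valuation_eq_one_iff_mem_and_inv_mem A hne', ← map_inv₀, ← hcompat,
      ← hcompat, ← valuation_eq_one_iff_mem_and_inv_mem A₀ hne]
    exact h.unit i
  · rw [HahnSeries.map_coeff, h.zero i j hji, map_zero]

/-- **Descent to a discretely valued subfield.**  Let `K → L` be an extension of valued fields,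
the valuation of `K` being discrete.  A finite-dimensional space `V₀` of Laurent series over `K`
with bounded denominators has a basis which is in echelon form over `A₀`, and whose image is in
echelon form over `A`; consequently (`IsEchelon.coeff_mem`) an `L`-linear combination of the image
basis is integral over `A` only if its scalars are in `A`. -/
theorem exists_echelon_basis_of_discrete
    (hcompat : ∀ x : K, x ∈ A₀ ↔ σ x ∈ A)
    {π : K} (hπ0 : π ≠ 0) (hπ : A₀.valuation π < 1)
    (hdisc : ∀ x : K, x ≠ 0 → ∃ m : ℤ, A₀.valuation x = A₀.valuation π ^ m)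
    (V₀ : Submodule K K⸨X⸩) [FiniteDimensional K V₀]
    (hbdd : ∀ v ∈ V₀, ∃ b : K, b ≠ 0 ∧ IsIntLS A₀ (b • v)) :
    ∃ (d : ℕ) (w : Fin d → K⸨X⸩) (p : Fin d → ℤ), (∀ i, w i ∈ V₀) ∧
      Submodule.span K (Set.range w) = V₀ ∧ IsEchelon A₀ w p ∧
      IsEchelon A (fun i => (w i).map σ) p := by
  obtain ⟨d, w, p, hwV, hech, hspan⟩ := exists_echelon_basis (A := A₀) V₀
    (fun v hv hv0 => exists_isPrimLS_smul_of_discrete hπ0 hπ hdisc hv0 (hbdd v hv))
  exact ⟨d, w, p, hwV, hspan, hech, hech.map σ hcompat⟩

end BaseChange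

end Fermat.Agent.Lib.ValLattice
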